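import Mathlib
import Fermat.Prelude.Def_ModularCurve_ArithmeticGalois
import Fermat.Prelude.Def_AlgebraicCurve_Repartitions
import Fermat.Agent.S30.Descent.Cap
import Fermat.Agent.S30.Descent.RRBaseChange
import Fermat.Agent.S18.C.PlaceEval
import Fermat.Agent.S36.K0DescentX0

/-!
# PROJECT H (S17), audit (A2) made literal: `ℚ`-structure and Galois equivariance

Part 1 (abstract, `g : SemilinearAut K F`): `adicValuation_smul`, `smul_mem_valuationSubring_iff`,
`evalAt_smul` (`(g f)(g P) = g (f (P))`), `smul_mem_rr_iff` (`g f ∈ L(g D) ↔ f ∈ L(D)`),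
`smul_mem_rr_of_stable`.

Part 2 (Laurent model `F = laurentBaseChange L F₀`, coefficientwise action of `Gal(L/ℚ)`):
`coeff_arithmeticGalois_smul`, `exists_fixed_basis` (a stable finite-dimensional `L`-subspace of
`F` has a basis of Galois-fixed functions: the reduced echelon basis for the `q`-coefficients),
`fixed_iff_rational` (fixed by all of `Gal(L/ℚ)` iff the `q`-expansion has rational coefficients iff
it comes from `F₀`), `exists_rational_basis_rr` (`L(D)` for a Galois-stable `D`).
-/

set_option autoImplicit false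

noncomputable section

namespace Fermat.Agent.S17.Dict.QStructure

open AlgebraicCurve AlgebraicCurve.SemilinearAut ModularCurve Module
open Fermat.Agent.S18.C.PlaceEval Fermat.Agent.S24.FF
open scoped Pointwise

/-! ### Part 1: abstract semilinear automorphisms -/

section Abstract

variable {K F : Type*} [Field K] [Field F] [Algebra K F]

theorem smul_ne_zero_iff (g : SemilinearAut K F) (f : F) : g • f ≠ 0 ↔ f ≠ 0 := by
  rw [smul_def]
  exact (map_ne_zero_iff _ (toRingAut g).injective)

/-- the normalised valuations are transported by a semilinear automorphism -/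
theorem adicValuation_smul (g : SemilinearAut K F) (v : Place K F) (f : F) :
    (g • v).adicValuation (g • f) = v.adicValuation f := by
  rcases eq_or_ne f 0 with rfl | hf
  · rw [smul_zero, map_zero, map_zero]
  · rw [Place.adicValuation_eq_exp_neg_ord _ ((smul_ne_zero_iff g f).mpr hf),
      Place.adicValuation_eq_exp_neg_ord _ hf, ord_smul]

theorem smul_mem_valuationSubring_iff (g : SemilinearAut K F) (v : Place K F) (f : F) :
    g • f ∈ (g • v).toValuationSubring ↔ f ∈ v.toValuationSubring := by
  rw [smul_toValuationSubring]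
  exact ValuationSubring.smul_mem_pointwise_smul_iff

/-- **evaluation is Galois equivariant**: `(g f)(g P) = g (f(P))` -/
theorem evalAt_smul [IsAlgClosed K] {x : F} (hx : IsFF K x) (g : SemilinearAut K F)
    (v : Place K F) (u : v.toValuationSubring) :
    evalAt hx (g • v) ⟨g • (u : F), (smul_mem_valuationSubring_iff g v u).mpr u.2⟩
      = baseAut g (evalAt hx v u) := by
  rw [evalAt_eq_iff]
  have h := adicValuation_sub_evalAt_lt_one hx v u
  rw [← adicValuation_smul g v, smul_sub, SemilinearAut.smul_algebraMap] at h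
  exact h

/-- `g f ∈ L(g D) ↔ f ∈ L(D)` -/
theorem smul_mem_rr_iff (g : SemilinearAut K F) (D : Divisor K F) (f : F) :
    g • f ∈ riemannRochSpace (g • D) ↔ f ∈ riemannRochSpace D := by
  rw [mem_riemannRochSpace_iff, mem_riemannRochSpace_iff]
  constructor
  · intro h v
    rcases h (g • v) with h0 | h1
    · left
      by_contra hne
      exact (smul_ne_zero_iff g f).mpr hne h0
    · right
      rwa [divisor_smul_apply_smul, ord_smul] at h1
  · intro h w
    rcases h (g⁻¹ • w) with h0 | h1
    · left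
      rw [h0, smul_zero]
    · right
      have h2 : (g • D) w = D (g⁻¹ • w) := divisor_smul_apply g D w
      have h3 : w.ord (g • f) = (g⁻¹ • w).ord f := by
        have := ord_smul g (g⁻¹ • w) f
        rwa [smul_inv_smul] at this
      rw [h2, h3]
      exact h1

/-- a `g`-stable divisor has a `g`-stable Riemann–Roch space -/
theorem smul_mem_rr_of_stable (g : SemilinearAut K F) {D : Divisor K F} (hD : g • D = D)
    {f : F} (hf : f ∈ riemannRochSpace D) : g • f ∈ riemannRochSpace D := by
  have := (smul_mem_rr_iff g D f).mpr hf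
  rwa [hD] at this

end Abstract

/-! ### Part 2: the Laurent model -/

section Laurent

variable {L : Type*} [Field L] [Algebra ℚ L]
variable (F₀ : IntermediateField ℚ (LaurentSeries ℚ))

local notation "FL" => laurentBaseChange L F₀

theorem coeff_arithmeticGalois_smul (σ : L ≃ₐ[ℚ] L) (x : FL) (n : ℤ) :
    ((arithmeticGalois F₀ σ • x : FL) : LaurentSeries L).coeff n
      = σ ((x : LaurentSeries L).coeff n) := by
  rw [coe_arithmeticGalois_smul, coeffMap_coeff]
  rfl

/-- **a Galois-stable finite-dimensional subspace of `F` has a basis of Galois-fixed functions**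
(the reduced echelon basis with respect to the `q`-expansion coefficients) -/
theorem exists_fixed_basis (V : Submodule L FL) [FiniteDimensional L V]
    (hV : ∀ σ : L ≃ₐ[ℚ] L, ∀ f ∈ V, arithmeticGalois F₀ σ • f ∈ V) :
    ∃ v : Basis (Fin (finrank L V)) L V,
      ∀ (σ : L ≃ₐ[ℚ] L) (i : Fin (finrank L V)),
        arithmeticGalois F₀ σ • ((v i : V) : FL) = ((v i : V) : FL) := by
  classical
  obtain ⟨n, v, hnv⟩ := Fermat.Agent.S30.Descent.RRBaseChange.exists_dual_coordinates
    (Fermat.Agent.S30.Descent.Cap.coeffLin FL)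
    (Fermat.Agent.S30.Descent.Cap.coeffLin_sep FL) V
  refine ⟨v, fun σ i => ?_⟩
  -- an element of `V` whose distinguished coordinates vanish is zero
  have hzero : ∀ u : V, (∀ j, Fermat.Agent.S30.Descent.Cap.coeffLin FL (n j) (u : FL) = 0) →
      u = 0 := by
    intro u hu
    have hrepr : u = ∑ i, v.repr u i • v i := (v.sum_repr u).symm
    have hcoord : ∀ j, v.repr u j = 0 := by
      intro j
      have h1 := hu j
      rw [hrepr] at h1
      simp only [Submodule.coe_sum, Submodule.coe_smul, map_sum, map_smul, smul_eq_mul, hnv] at h1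
      simpa using h1
    rw [hrepr]
    exact Finset.sum_eq_zero fun i _ => by rw [hcoord i, zero_smul]
  set w : V := ⟨arithmeticGalois F₀ σ • ((v i : V) : FL), hV σ _ (v i).2⟩ with hw
  have hwv : w - v i = 0 := by
    apply hzero
    intro j
    have h1 : Fermat.Agent.S30.Descent.Cap.coeffLin FL (n j) ((w : V) : FL)
        = σ (Fermat.Agent.S30.Descent.Cap.coeffLin FL (n j) ((v i : V) : FL)) := by
      rw [Fermat.Agent.S30.Descent.Cap.coeffLin_apply, Fermat.Agent.S30.Descent.Cap.coeffLin_apply]
      exact coeff_arithmeticGalois_smul F₀ σ _ _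
    rw [Submodule.coe_sub, map_sub, h1, hnv]
    split_ifs <;> simp
  have : w = v i := sub_eq_zero.mp hwv
  exact congrArg (fun z : V => (z : FL)) this

/-- **rational functions**: fixed by all of `Gal(L/ℚ)` iff the `q`-expansion is the base change of
an element of `F₀` -/
theorem fixed_iff_rational [IsGalois ℚ L] (f : FL) :
    (∀ σ : L ≃ₐ[ℚ] L, arithmeticGalois F₀ σ • f = f) ↔
      ∃ s ∈ F₀, coeffEmb L s = (f : LaurentSeries L) := by
  constructor
  · intro h
    have hcoeff : ∀ n, (f : LaurentSeries L).coeff n ∈ Set.range (algebraMap ℚ L) := by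
      intro n
      rw [InfiniteGalois.mem_range_algebraMap_iff_fixed]
      intro σ
      have := congrArg (fun z : FL => (z : LaurentSeries L).coeff n) (h σ)
      simp only [coeff_arithmeticGalois_smul] at this
      exact this
    exact Fermat.Agent.S30.Descent.Cap.cap F₀ (f : LaurentSeries L) f.2 hcoeff
  · rintro ⟨s, -, hs⟩ σ
    apply Subtype.ext
    rw [coe_arithmeticGalois_smul, ← hs]
    exact coeffMap_coeffEmb σ s

/-- **`L(D)` of a Galois-stable divisor has a basis of rational functions** -/
theorem exists_rational_basis_rr [IsGalois ℚ L] (D : Divisor L FL)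
    (hD : ∀ σ : L ≃ₐ[ℚ] L, arithmeticGalois F₀ σ • D = D)
    [FiniteDimensional L (riemannRochSpace D)] :
    ∃ (v : Basis (Fin (finrank L (riemannRochSpace D))) L (riemannRochSpace D))
      (s : Fin (finrank L (riemannRochSpace D)) → LaurentSeries ℚ),
      (∀ i, s i ∈ F₀) ∧
      (∀ i, coeffEmb L (s i) = (((v i : riemannRochSpace D) : FL) : LaurentSeries L)) ∧
      ∀ (σ : L ≃ₐ[ℚ] L) i, arithmeticGalois F₀ σ • ((v i : riemannRochSpace D) : FL)
        = ((v i : riemannRochSpace D) : FL) := by
  obtain ⟨v, hv⟩ := exists_fixed_basis F₀ (riemannRochSpace D)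
    (fun σ f hf => smul_mem_rr_of_stable (arithmeticGalois F₀ σ) (hD σ) hf)
  have h := fun i => (fixed_iff_rational F₀ ((v i : riemannRochSpace D) : FL)).mp
    (fun σ => hv σ i)
  choose s hs hs' using h
  exact ⟨v, s, hs, hs', hv⟩

/-- **a Galois-stable principal divisor is the divisor of a rational function**: if the orders of
`f₀` are constant on Galois orbits of places, then `f₀ / qLead f₀` is Galois-fixed (no Hilbert 90:
normalise the leading `q`-coefficient). -/
theorem smul_normalised_eq {g : ℕ}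
    (HR : Fermat.Agent.S18.NonSpecial.RiemannHyp L FL g)
    {f₀ : FL} (hf₀ : f₀ ≠ 0)
    (hst : ∀ (σ : L ≃ₐ[ℚ] L) (w : Place L FL), (arithmeticGalois F₀ σ • w).ord f₀ = w.ord f₀)
    (σ : L ≃ₐ[ℚ] L) :
    arithmeticGalois F₀ σ •
        (algebraMap L FL (Fermat.Agent.S36.K0DescentLaurent.qLead F₀ f₀)⁻¹ * f₀)
      = algebraMap L FL (Fermat.Agent.S36.K0DescentLaurent.qLead F₀ f₀)⁻¹ * f₀ := by
  set lc := Fermat.Agent.S36.K0DescentLaurent.qLead F₀ f₀ with hlc
  have hlc0 : lc ≠ 0 := Fermat.Agent.S36.K0DescentLaurent.qLead_ne_zero F₀ f₀ hf₀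
  set f : FL := algebraMap L FL lc⁻¹ * f₀ with hf
  have hc0 : algebraMap L FL lc⁻¹ ≠ 0 := by
    rw [Ne, map_eq_zero]; exact inv_ne_zero hlc0
  have hfne : f ≠ 0 := mul_ne_zero hc0 hf₀
  have hlead : Fermat.Agent.S36.K0DescentLaurent.qLead F₀ f = 1 := by
    rw [hf, Fermat.Agent.S36.K0DescentLaurent.qLead_const_mul, ← hlc, inv_mul_cancel₀ hlc0]
  set γ := arithmeticGalois F₀ σ with hγ
  have hγf : γ • f ≠ 0 := (smul_ne_zero_iff γ f).mpr hfne
  -- orders of `f` are constant on orbits as well
  have hordc : ∀ w : Place L FL, w.ord (algebraMap L FL lc⁻¹) = 0 := by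
    intro w
    have hmem : algebraMap L FL lc⁻¹ ∈ w.toValuationSubring := w.algebraMap_mem' _
    have hmem' : (algebraMap L FL lc⁻¹)⁻¹ ∈ w.toValuationSubring := by
      rw [← map_inv₀]; exact w.algebraMap_mem' _
    have h1 : w.adicValuation (algebraMap L FL lc⁻¹) ≤ 1 :=
      w.adicValuation_le_one_of_mem hmem
    have h2 : w.adicValuation (algebraMap L FL lc⁻¹)⁻¹ ≤ 1 :=
      w.adicValuation_le_one_of_mem hmem'
    rw [Place.adicValuation_le_one_iff] at h1 h2
    rcases h1 with h1 | h1
    · exact absurd h1 hc0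
    rcases h2 with h2 | h2
    · exact absurd h2 (inv_ne_zero hc0)
    rw [Place.ord_inv] at h2
    omega
  have hordf : ∀ w : Place L FL, w.ord f = w.ord f₀ := by
    intro w
    rw [hf, w.ord_mul hc0 hf₀, hordc, zero_add]
  have hu : ∀ w : Place L FL, w.ord (γ • f * f⁻¹) = 0 := by
    intro w
    rw [w.ord_mul hγf (inv_ne_zero hfne), Place.ord_inv]
    have h1 : w.ord (γ • f) = (γ⁻¹ • w).ord f := by
      have := ord_smul γ (γ⁻¹ • w) f
      rwa [smul_inv_smul] at this
    have h2 : (γ⁻¹ • w).ord f₀ = w.ord f₀ := by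
      have := hst σ (γ⁻¹ • w)
      rw [← hγ, smul_inv_smul] at this
      exact this.symm
    rw [h1, hordf, hordf, h2]
    ring
  obtain ⟨c, -, hcu⟩ := Fermat.Agent.S36.K0Descent.exists_const_of_ord_eq_zero HR
    (mul_ne_zero hγf (inv_ne_zero hfne)) hu
  have hγf_eq : γ • f = algebraMap L FL c * f := by
    rw [← hcu, mul_assoc, inv_mul_cancel₀ hfne, mul_one]
  have hc1 : c = 1 := by
    have h1 : Fermat.Agent.S36.K0DescentLaurent.qLead F₀ (γ • f) = σ 1 := by
      rw [hγ, Fermat.Agent.S36.K0DescentLaurent.qLead_arithmeticGalois_smul, hlead]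
    rw [hγf_eq, Fermat.Agent.S36.K0DescentLaurent.qLead_const_mul, hlead, mul_one, map_one] at h1
    exact h1
  rw [hγf_eq, hc1, map_one, one_mul]

end Laurent

/-! ### Part 3: the instance `X₀(N)` over `ℚ̄` -/

section X0

local notation "Kb" => AlgebraicClosure ℚ

variable (N : ℕ) [NeZero N]

theorem isGalois_Kb : IsGalois ℚ Kb :=
  have : Algebra.IsAlgebraic ℚ Kb := AlgebraicClosure.isAlgebraic ℚ
  have : IsAlgClosure ℚ Kb := ⟨inferInstance, inferInstance⟩
  { to_isSeparable := inferInstance
    to_normal := IsAlgClosure.normal ℚ Kb }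

/-- the cusp `∞` of `X₀(N)` as a place of `ℚ̄(X₀(N))` -/
def oo : Place Kb (modularFunctionFieldBar N) :=
  Fermat.Agent.S36.K0DescentLaurent.cuspPlace (modularFunctionFieldFull N)
    (Fermat.Agent.S36.K0DescentX0.exists_pole N)

/-- `∞` is fixed by `G_ℚ` -/
theorem smul_oo (σ : Kb ≃ₐ[ℚ] Kb) :
    arithmeticGalois (modularFunctionFieldFull N) σ • oo N = oo N :=
  Fermat.Agent.S36.K0DescentLaurent.arithmeticGalois_smul_cuspPlace _ _ σ

/-- the multiples of `∞` are `G_ℚ`-stable divisors -/
theorem smul_single_oo (σ : Kb ≃ₐ[ℚ] Kb) (n : ℤ) :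
    arithmeticGalois (modularFunctionFieldFull N) σ •
        (Finsupp.single (oo N) n : Divisor Kb (modularFunctionFieldBar N))
      = Finsupp.single (oo N) n := by
  rw [SemilinearAut.smul_single, smul_oo]

/-- **`L(D)` has a basis of rational functions for every `G_ℚ`-stable divisor `D` on `X₀(N)`**
(e.g. `D = δ ∞`: a `ℚ`-rational basis `x₀, …, xₙ` of `V* = L(δ∞)`, `q`-expansions in `ℚ((q))`). -/
theorem exists_rational_basis_rr_X0 (D : Divisor Kb (modularFunctionFieldBar N))
    (hD : ∀ σ : Kb ≃ₐ[ℚ] Kb, arithmeticGalois (modularFunctionFieldFull N) σ • D = D) :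
    ∃ (d : ℕ) (v : Basis (Fin d) Kb (riemannRochSpace D)) (s : Fin d → LaurentSeries ℚ),
      (∀ i, s i ∈ modularFunctionFieldFull N) ∧
      (∀ i, coeffEmb Kb (s i)
        = (((v i : riemannRochSpace D) : modularFunctionFieldBar N) : LaurentSeries Kb)) ∧
      ∀ (σ : Kb ≃ₐ[ℚ] Kb) i, arithmeticGalois (modularFunctionFieldFull N) σ •
          ((v i : riemannRochSpace D) : modularFunctionFieldBar N)
        = ((v i : riemannRochSpace D) : modularFunctionFieldBar N) := by
  obtain ⟨g, HR⟩ := Fermat.Agent.S18.A.RiemannFk.exists_riemannHyp_FL N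
  have : Module.Finite Kb (riemannRochSpace D) := HR.finite D
  have := isGalois_Kb
  obtain ⟨v, s, h1, h2, h3⟩ :=
    exists_rational_basis_rr (L := Kb) (modularFunctionFieldFull N) D hD
  exact ⟨_, v, s, h1, h2, h3⟩

end X0

end Fermat.Agent.S17.Dict.QStructure
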