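import Mathlib
import Fermat.Agent.S17.Model.Rational
import Fermat.Agent.S17.RR.X0
import Fermat.Agent.S37.Equivariance.PlaceEquiv

/-!
# PROJECT H (S17): the canonical divisor `KX0 N = div(dj)` of `X₀(N)` is `G_ℚ`-stable

`gal_smul_KX0` is literally the hypothesis `hK` of `Pos/FixedData` (B.8(i): the class `δ∞ - K` is
Galois stable), obtained from `Model/Rational.canDiv_gal` and main's `smul_jgen` (`j` is rational).
Also: divisors of rational functions are stable (`ord_gal_of_fixed`, `zmult`-shape
`ord_add_apply_gal`).
-/

set_option autoImplicit false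

namespace Fermat.Agent.S17.Dict.CanDivX0

open AlgebraicCurve AlgebraicCurve.SemilinearAut ModularCurve
open Fermat.Agent.S17.RR.X0 Fermat.Agent.S17.Dict.QStructure

local notation "Kb" => AlgebraicClosure ℚ
local notation "GQ" => (AlgebraicClosure ℚ ≃ₐ[ℚ] AlgebraicClosure ℚ)

variable (N : ℕ) [NeZero N]

/-- **the canonical divisor `div(dj)` is `G_ℚ`-stable** (`hK` of `Pos/FixedData`) -/
theorem gal_smul_KX0 (σ : GQ) :
    arithmeticGalois (modularFunctionFieldFull N) σ • KX0 N = KX0 N :=
  Fermat.Agent.S17.Model.Rational.canDiv_gal _ _ _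
    (Fermat.Agent.S37.Equivariance.PlaceEquiv.smul_jgen N σ)

theorem KX0_gal_apply (σ : GQ) (P : Place Kb (modularFunctionFieldBar N)) :
    KX0 N (arithmeticGalois (modularFunctionFieldFull N) σ • P) = KX0 N P := by
  have h := divisor_smul_apply_smul (arithmeticGalois (modularFunctionFieldFull N) σ) (KX0 N) P
  rwa [gal_smul_KX0] at h

variable {N}

omit [NeZero N] in
/-- the orders of a rational function are constant on Galois orbits -/
theorem ord_gal_of_fixed {σ : GQ} {h : modularFunctionFieldBar N}
    (hh : arithmeticGalois (modularFunctionFieldFull N) σ • h = h)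
    (P : Place Kb (modularFunctionFieldBar N)) :
    (arithmeticGalois (modularFunctionFieldFull N) σ • P).ord h = P.ord h := by
  conv_lhs => rw [← hh]
  exact ord_smul _ P h

omit [NeZero N] in
/-- the zero divisor `div h + D` of a rational section `h` of a stable divisor `D` is stable -/
theorem ord_add_apply_gal {σ : GQ} {h : modularFunctionFieldBar N}
    (hh : arithmeticGalois (modularFunctionFieldFull N) σ • h = h)
    {D : Divisor Kb (modularFunctionFieldBar N)}
    (hD : arithmeticGalois (modularFunctionFieldFull N) σ • D = D)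
    (P : Place Kb (modularFunctionFieldBar N)) :
    (arithmeticGalois (modularFunctionFieldFull N) σ • P).ord h
        + D (arithmeticGalois (modularFunctionFieldFull N) σ • P)
      = P.ord h + D P := by
  have h2 := divisor_smul_apply_smul (arithmeticGalois (modularFunctionFieldFull N) σ) D P
  rw [hD] at h2
  rw [ord_gal_of_fixed hh, h2]

/-- the divisor `δ∞ - KX0` (the class of the `E_l` of B.8) is stable -/
theorem gal_smul_single_oo_sub_KX0 (σ : GQ) (δ : ℤ) :
    arithmeticGalois (modularFunctionFieldFull N) σ • (Finsupp.single (oo N) δ - KX0 N)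
      = Finsupp.single (oo N) δ - KX0 N := by
  rw [smul_sub, smul_single_oo, gal_smul_KX0]

end Fermat.Agent.S17.Dict.CanDivX0
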